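/-
S59 library / Out / Main  (helper6)  — Project I, block (G5) OUTPUT.

`mlc1_of_char`: a characteristic-zero character `χ` of the weight-2 Hecke algebra of a level `N`
(cube-free, `p² ∤ N`) away from a finite set `S`, taking the values `a_ℓ(W)` at the `T_ℓ`
(`ℓ ∉ S`, `ℓ ∤ N`), makes the semistable curve `W` modular of exact conductor level.

Proof: `S29lib.S30.exists_eigenform_of_char` (eigenform of level `N` for `χ`), stabilisation at the
primes of `S ∪ {bad primes}` not dividing `N` (`S58lib.Stab.exists_eigenform_of_level_eq`), and `S58`.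
-/
import Fermat.Agent.S58
import Fermat.Agent.S29lib.S30.EigenOfChar
import Fermat.Agent.S58lib.Stab.Basic
import Fermat.Prelude.Def_WeierstrassCurve_Mlc1RowStatement

set_option autoImplicit false

noncomputable section

namespace Fermat.Agent.S59lib.Out

open CuspForm ModularFormClass CongruenceSubgroup WeierstrassCurve

/-- a prime power `q ^ k`, `k ≥ 2`, dividing `N * s` with `s` squarefree and prime to `N` divides
`N`. -/
theorem pow_dvd_of_dvd_mul_squarefree {N s q k : ℕ} (hq : q.Prime) (hk : 2 ≤ k)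
    (hcop : N.Coprime s) (hs : Squarefree s) (h : q ^ k ∣ N * s) : q ^ k ∣ N := by
  by_cases hqs : q ∣ s
  · exfalso
    have hqN : ¬ q ∣ N := fun hqN =>
      hq.one_lt.ne' (Nat.Coprime.eq_one_of_dvd (Nat.Coprime.coprime_dvd_left hqN hcop) hqs)
    have h1 : (q ^ k).Coprime N := Nat.Coprime.pow_left k ((Nat.Prime.coprime_iff_not_dvd hq).2 hqN)
    have h2 : q ^ k ∣ s := h1.dvd_of_dvd_mul_left h
    have h3 : q * q ∣ s := by
      refine dvd_trans ?_ h2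
      obtain ⟨j, rfl⟩ : ∃ j, k = 2 + j := ⟨k - 2, by omega⟩
      rw [pow_add, pow_two]
      exact Dvd.intro _ rfl
    exact hq.one_lt.ne' (Nat.isUnit_iff.mp (hs q h3))
  · have h1 : (q ^ k).Coprime s := Nat.Coprime.pow_left k ((Nat.Prime.coprime_iff_not_dvd hq).2 hqs)
    exact h1.dvd_of_dvd_mul_right h

/-- the product of the primes of a finite set of primes not dividing `N` -/
theorem exists_squarefree_coprime (N : ℕ) (F : Finset ℕ) (hF : ∀ r ∈ F, r.Prime) :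
    ∃ s : ℕ, Squarefree s ∧ N.Coprime s ∧ ∀ r ∈ F, ¬ r ∣ N → r ∣ s := by
  classical
  refine ⟨∏ r ∈ F.filter (fun r => ¬ r ∣ N), r, ?_, ?_, ?_⟩
  · refine Finset.squarefree_prod_of_pairwise_isCoprime ?_ ?_
    · intro a ha b hb hab
      rw [Finset.mem_coe, Finset.mem_filter] at ha hb
      show IsRelPrime a b
      rw [← Nat.coprime_iff_isRelPrime]
      exact (Nat.coprime_primes (hF a ha.1) (hF b hb.1)).2 hab
    · intro r hr
      rw [Finset.mem_filter] at hr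
      exact (hF r hr.1).prime.squarefree
  · refine Nat.Coprime.prod_right fun r hr => ?_
    rw [Finset.mem_filter] at hr
    exact ((Nat.Prime.coprime_iff_not_dvd (hF r hr.1)).2 hr.2).symm
  · intro r hr hrN
    exact Finset.dvd_prod_of_mem _ (Finset.mem_filter.2 ⟨hr, hrN⟩)

/-- **Block (G5) OUTPUT.** -/
theorem mlc1_of_char (W : WeierstrassCurve ℤ) (hΔ : W.Δ ≠ 0) (hss : W.IsSemistableModel)
    (p : ℕ) [Fact p.Prime] (hp2 : p ≠ 2) (hirr : W.ModRepIsIrreducible p)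
    (N : ℕ) [NeZero N] (hp2N : ¬ p ^ 2 ∣ N) (hN3 : ∀ q : ℕ, q.Prime → ¬ q ^ 3 ∣ N)
    (S : Finset ℕ) (𝒪 : Type) [CommRing 𝒪] [IsDomain 𝒪] [CharZero 𝒪]
    (χ : CuspForm.heckeAlgebra N 2 (↑S : Set ℕ) →+* 𝒪)
    (hχ : ∀ (ℓ : ℕ) (hℓ : ℓ.Prime) (hℓN : ¬ ℓ ∣ N) (hℓS : ℓ ∉ (↑S : Set ℕ)),
      χ (CuspForm.heckeAlgebra.T hℓ hℓN hℓS) = ((W.apOfModel ℓ : ℤ) : 𝒪)) :
    Mlc1IsModularModelOfExactConductorLevel W := by
  classical
  have hp : p.Prime := Fact.out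
  -- the eigenform of level `N`
  obtain ⟨K₁, -, g, hg, R, _, _, eC, e1, b, -, he1, hb, hbχ⟩ :=
    Fermat.Agent.S29lib.S30.exists_eigenform_of_char N (↑S : Set ℕ) 𝒪 χ
  have hgW : ∀ ℓ : ℕ, ℓ.Prime → ¬ ℓ ∣ N → ℓ ∉ S → qCoeff ⇑g ℓ = (W.apOfModel ℓ : ℂ) := by
    intro ℓ hℓ hℓN hℓS
    have hℓS' : ℓ ∉ (↑S : Set ℕ) := fun h => hℓS (Finset.mem_coe.1 h)
    have h1 : e1 (b ⟨ℓ, hℓ⟩) = e1 ((W.apOfModel ℓ : ℤ) : R) := by
      rw [hbχ ℓ hℓ hℓN hℓS', hχ ℓ hℓ hℓN hℓS', map_intCast, map_intCast]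
    have h2 : b ⟨ℓ, hℓ⟩ = ((W.apOfModel ℓ : ℤ) : R) := he1 h1
    have h3 := hb ⟨ℓ, hℓ⟩
    rw [h2, map_intCast] at h3
    exact h3.symm
  -- the auxiliary level
  set F : Finset ℕ := (S ∪ W.Δ.natAbs.primeFactors).filter Nat.Prime with hFdef
  have hF : ∀ r ∈ F, r.Prime := fun r hr => (Finset.mem_filter.1 hr).2
  obtain ⟨s, hs, hcop, hsF⟩ := exists_squarefree_coprime N F hF
  obtain ⟨g', hg', hc⟩ :=
    Fermat.Agent.S58lib.Stab.exists_eigenform_of_level_eq g hg s hs hcop (N * s) rfl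
  have hmod : W.IsModularModelOfLevel (N * s) := by
    refine ⟨g', hg', fun ℓ hℓ hgood hℓNs => ?_⟩
    have hℓN : ¬ ℓ ∣ N := fun h => hℓNs (h.mul_right s)
    have hℓs : ¬ ℓ ∣ s := fun h => hℓNs (h.mul_left N)
    have hℓS : ℓ ∉ S := fun h =>
      hℓs (hsF ℓ (Finset.mem_filter.2 ⟨Finset.mem_union_left _ h, hℓ⟩) hℓN)
    rw [hc ℓ ((Nat.Prime.coprime_iff_not_dvd hℓ).2 hℓs), hgW ℓ hℓ hℓN hℓS]
  have hbad : ∀ ℓ : ℕ, ℓ.Prime → (ℓ : ℤ) ∣ W.Δ → ℓ ∣ N * s := by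
    intro ℓ hℓ hℓΔ
    by_cases hℓN : ℓ ∣ N
    · exact hℓN.mul_right s
    · refine (hsF ℓ (Finset.mem_filter.2 ⟨Finset.mem_union_right _ ?_, hℓ⟩) hℓN).mul_left N
      exact Nat.mem_primeFactors.2 ⟨hℓ, Int.natCast_dvd.1 hℓΔ, Int.natAbs_ne_zero.2 hΔ⟩
  have h1 : ¬ p ^ 2 ∣ N * s := fun h =>
    hp2N (pow_dvd_of_dvd_mul_squarefree hp le_rfl hcop hs h)
  have h3 : ∀ q : ℕ, q.Prime → ¬ q ^ 3 ∣ N * s := fun q hq h =>
    hN3 q hq (pow_dvd_of_dvd_mul_squarefree hq (by norm_num) hcop hs h)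
  have hfin := Fermat.Agent.S58.result W hss (N * s) p hp2 hirr h1 hmod hbad h3
  exact ⟨W.conductorLevel, W.conductorLevel_pos, W.squarefree_conductorLevel,
    fun q hq => W.prime_dvd_conductorLevel_iff hΔ hq, hfin⟩

end Fermat.Agent.S59lib.Out
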